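import Mathlib
import Fermat.Prelude.Def_AlgebraicCurve_DivisorClassGroup

/-!
# GALREP / KUM-K7 KAPPA: the abstract Kummer map (helper6580)

Setting: fields `K`, `F/K`, a field `M` (in the application `B2M.MerH`, the meromorphic
functions on the upper half plane) which is an algebra over a field `C` (the complex numbers),
a group `G` (`Gamma0 N`) acting on `M` by ring automorphisms fixing the constants, and a ring
homomorphism `Φ : F →+* M` with `G`-invariant image.

From the conclusions of the analytic leaves, taken as hypotheses (`Hyp`), we build the Kummer map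
`kappa n : Pic0.torsion K F n →+ Additive (G →* Cˣ)` and prove that it is well defined, additive,
compatible in `n`, has `n`-torsion values, is injective (from the descent hypothesis), trivial on
"parabolic" elements (from the cusp hypothesis) and equivariant for correspondences.
-/

set_option autoImplicit false

noncomputable section

namespace Fermat.Agent.S30.Kappa6580

open AlgebraicCurve

/-- The abstract Kummer setup. -/
structure Setup (K F M C G : Type*) [Field K] [Field F] [Algebra K F] [Field M] [Field C]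
    [Algebra C M] [Group G] where
  Φ : F →+* M
  act : G →* (M ≃+* M)
  act_Φ : ∀ (g : G) (f : F), act g (Φ f) = Φ f
  act_const : ∀ (g : G) (z : C), act g (algebraMap C M z) = algebraMap C M z

namespace Setup

variable {K F M C G : Type*} [Field K] [Field F] [Algebra K F] [Field M] [Field C]
  [Algebra C M] [Group G] (S : Setup K F M C G)

/-- `χ` is the character through which `G` acts on `h`. -/
def IsChar (h : M) (χ : G →* Cˣ) : Prop :=
  ∀ g : G, S.act g h = algebraMap C M (χ g : C) * h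

theorem IsChar.unique {h : M} {χ ψ : G →* Cˣ} (h0 : h ≠ 0) (hχ : S.IsChar h χ)
    (hψ : S.IsChar h ψ) : χ = ψ := by
  ext g
  have e : algebraMap C M (χ g : C) * h = algebraMap C M (ψ g : C) * h := by
    rw [← hχ g, ← hψ g]
  exact (algebraMap C M).injective (mul_right_cancel₀ h0 e)

theorem IsChar.mul {h₁ h₂ : M} {χ₁ χ₂ : G →* Cˣ} (h1 : S.IsChar h₁ χ₁) (h2 : S.IsChar h₂ χ₂) :
    S.IsChar (h₁ * h₂) (χ₁ * χ₂) := by
  intro g
  rw [map_mul, h1 g, h2 g, MonoidHom.mul_apply, Units.val_mul, map_mul]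
  ring

theorem isChar_one_of_invariant {h : M} (hh : ∀ g : G, S.act g h = h) : S.IsChar h 1 := by
  intro g
  simp [hh g]

theorem IsChar.invariant {h : M} (hh : S.IsChar h 1) (g : G) : S.act g h = h := by
  have := hh g
  simpa using this

theorem IsChar.invariant_mul {h u : M} {χ : G →* Cˣ} (hu : ∀ g : G, S.act g u = u)
    (hh : S.IsChar h χ) : S.IsChar (u * h) χ := by
  intro g
  rw [map_mul, hu g, hh g]
  ring

theorem act_const_mul (g : G) (z : C) (h : M) :
    S.act g (algebraMap C M z * h) = algebraMap C M z * S.act g h := by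
  rw [map_mul, S.act_const]

theorem IsChar.pow_eq_one {h : M} {χ : G →* Cˣ} {n : ℕ} (h0 : h ≠ 0) (hχ : S.IsChar h χ)
    (hn : ∀ g : G, S.act g (h ^ n) = h ^ n) (g : G) : χ g ^ n = 1 := by
  have e : (algebraMap C M (χ g : C)) ^ n * h ^ n = 1 * h ^ n := by
    rw [← mul_pow, ← hχ g, ← map_pow, hn g, one_mul]
  have e' : algebraMap C M ((χ g : C) ^ n) = algebraMap C M 1 := by
    rw [map_pow, map_one]
    exact mul_right_cancel₀ (pow_ne_zero n h0) e
  have e'' := (algebraMap C M).injective e'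
  ext
  simpa using e''

/-- An `n`-th root of unity of `M` is a constant, if `C` has a primitive `n`-th root of unity. -/
theorem exists_const_of_pow_eq_one {n : ℕ} (hn : n ≠ 0) (hprim : ∃ ζ : C, IsPrimitiveRoot ζ n)
    {w : M} (hw : w ^ n = 1) : ∃ z : Cˣ, algebraMap C M (z : C) = w := by
  obtain ⟨ζ, hζ⟩ := hprim
  have : NeZero n := ⟨hn⟩
  have hζ' : IsPrimitiveRoot (algebraMap C M ζ) n := hζ.map_of_injective (algebraMap C M).injective
  obtain ⟨i, -, hi⟩ := hζ'.eq_pow_of_pow_eq_one hw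
  have hζ0 : ζ ≠ 0 := hζ.ne_zero hn
  refine ⟨(Units.mk0 ζ hζ0) ^ i, ?_⟩
  rw [Units.val_pow_eq_pow_val, Units.val_mk0, map_pow, hi]

/-- Existence of the Kummer character of an `n`-th root of an invariant element. -/
theorem exists_isChar {n : ℕ} (hn : n ≠ 0) (hprim : ∃ ζ : C, IsPrimitiveRoot ζ n) {h : M}
    (h0 : h ≠ 0) (hinv : ∀ g : G, S.act g (h ^ n) = h ^ n) : ∃ χ : G →* Cˣ, S.IsChar h χ := by
  have key : ∀ g : G, ∃ z : Cˣ, algebraMap C M (z : C) = S.act g h / h := by
    intro g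
    apply exists_const_of_pow_eq_one hn hprim
    rw [div_pow, ← map_pow, hinv g, div_self (pow_ne_zero n h0)]
  choose z hz using key
  have hz' : ∀ g : G, S.act g h = algebraMap C M (z g : C) * h := by
    intro g
    rw [hz g, div_mul_cancel₀ _ h0]
  have hmul : ∀ a b : G, z (a * b) = z a * z b := by
    intro a b
    have e : algebraMap C M (z (a * b) : C) * h = algebraMap C M ((z a * z b : Cˣ) : C) * h := by
      rw [← hz' (a * b), map_mul, RingAut.mul_apply, hz' b, S.act_const_mul, hz' a,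
        Units.val_mul, map_mul]
      ring
    have e' := (algebraMap C M).injective (mul_right_cancel₀ h0 e)
    exact Units.ext e'
  exact ⟨MonoidHom.mk' z hmul, hz'⟩

/-! ### Kummer data -/

/-- `IsKummer n x χ`: the class `x` is represented by a degree zero divisor `D` with
`n D = div f`, and `χ` is the character of an `n`-th root of `Φ f`. -/
def IsKummer (n : ℕ) (x : Pic0 K F) (χ : G →* Cˣ) : Prop :=
  ∃ (D : Divisor.degZero (K := K) (F := F)) (f : F) (h : M), Pic0.mk D = x ∧ f ≠ 0 ∧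
    (∀ v : Place K F, (n : ℤ) * (D : Divisor K F) v = v.ord f) ∧ h ^ n = S.Φ f ∧ S.IsChar h χ

/-- The hypotheses (conclusions of the analytic leaves) under which `kappa n` is defined. -/
structure Hyp (n : ℕ) : Prop where
  pos : n ≠ 0
  prim : ∃ ζ : C, IsPrimitiveRoot ζ n
  rootK : ∀ a : K, ∃ b : K, b ^ n = a
  const : ∀ f : F, f ≠ 0 → (∀ v : Place K F, v.ord f = 0) → ∃ a : K, algebraMap K F a = f
  root : ∀ f : F, f ≠ 0 → (∀ v : Place K F, (n : ℤ) ∣ v.ord f) → ∃ h : M, h ^ n = S.Φ f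

theorem ord_pow (v : Place K F) (f : F) (m : ℕ) : v.ord (f ^ m) = (m : ℤ) * v.ord f := by
  have := v.ord_zpow f (m : ℤ)
  rwa [zpow_natCast] at this

theorem Φ_ne_zero {f : F} (hf : f ≠ 0) : S.Φ f ≠ 0 := by
  rwa [Ne, map_eq_zero]

theorem mk_eq_zero_iff (D : Divisor.degZero (K := K) (F := F)) :
    Pic0.mk D = 0 ↔ ∃ u : F, u ≠ 0 ∧ ∀ v : Place K F, (D : Divisor K F) v = v.ord u := by
  unfold Pic0.mk
  rw [QuotientAddGroup.eq_zero_iff, AddSubgroup.mem_addSubgroupOf]
  rfl

theorem mk_eq_mk_iff (D D' : Divisor.degZero (K := K) (F := F)) :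
    Pic0.mk D = Pic0.mk D' ↔
      ∃ u : F, u ≠ 0 ∧ ∀ v : Place K F, (D : Divisor K F) v - (D' : Divisor K F) v = v.ord u := by
  have h1 : Pic0.mk D = Pic0.mk D' ↔ Pic0.mk (D - D') = 0 := by
    have : Pic0.mk (D - D') = Pic0.mk D - Pic0.mk D' := rfl
    rw [this, sub_eq_zero]
  rw [h1, mk_eq_zero_iff]
  simp

variable {S}

theorem IsKummer.pow_eq_one {n : ℕ} {x : Pic0 K F} {χ : G →* Cˣ} (hx : S.IsKummer n x χ)
    (g : G) : χ g ^ n = 1 := by
  obtain ⟨D, f, h, -, hf, -, hh, hχ⟩ := hx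
  rcases Nat.eq_zero_or_pos n with rfl | hn
  · simp
  have h0 : h ≠ 0 := by
    rintro rfl
    rw [zero_pow hn.ne'] at hh
    exact S.Φ_ne_zero hf hh.symm
  exact hχ.pow_eq_one S h0 (fun g => by rw [hh, S.act_Φ]) g

theorem IsKummer.root_ne_zero {n : ℕ} (hn : n ≠ 0) {f : F} (hf : f ≠ 0) {h : M}
    (hh : h ^ n = S.Φ f) : h ≠ 0 := by
  rintro rfl
  rw [zero_pow hn] at hh
  exact S.Φ_ne_zero hf hh.symm

/-- Existence of Kummer data for `n`-torsion classes. -/
theorem exists_isKummer {n : ℕ} (H : S.Hyp n) {x : Pic0 K F} (hx : x ∈ Pic0.torsion K F n) :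
    ∃ χ : G →* Cˣ, S.IsKummer n x χ := by
  obtain ⟨D, rfl⟩ := Pic0.mk_surjective x
  rw [Pic0.mem_torsion] at hx
  have hx' : Pic0.mk ((n : ℤ) • D) = 0 := hx
  obtain ⟨f, hf, hDf⟩ := (Setup.mk_eq_zero_iff _).1 hx'
  have hDf' : ∀ v : Place K F, (n : ℤ) * (D : Divisor K F) v = v.ord f := by
    intro v
    rw [← hDf v]
    simp
  obtain ⟨h, hh⟩ := H.root f hf (fun v => ⟨_, (hDf' v).symm⟩)
  have h0 : h ≠ 0 := IsKummer.root_ne_zero H.pos hf hh
  obtain ⟨χ, hχ⟩ := S.exists_isChar H.pos H.prim h0 (fun g => by rw [hh, S.act_Φ])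
  exact ⟨χ, D, f, h, rfl, hf, hDf', hh, hχ⟩

/-- Uniqueness of the Kummer character: it does not depend on the divisor, the function or
the root. -/
theorem IsKummer.unique {n : ℕ} (H : S.Hyp n) {x : Pic0 K F} {χ ψ : G →* Cˣ}
    (hχ : S.IsKummer n x χ) (hψ : S.IsKummer n x ψ) : χ = ψ := by
  obtain ⟨D, f, h, hD, hf, hDf, hh, hχ⟩ := hχ
  obtain ⟨D', f', h', hD', hf', hDf', hh', hψ⟩ := hψ
  have hn := H.pos
  have h0 : h ≠ 0 := IsKummer.root_ne_zero hn hf hh
  have h0' : h' ≠ 0 := IsKummer.root_ne_zero hn hf' hh'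
  obtain ⟨u, hu, hDu⟩ := (Setup.mk_eq_mk_iff D D').1 (hD.trans hD'.symm)
  -- `w = f / (f' u^n)` has trivial divisor, hence is a constant
  set w : F := f * (f' * u ^ n)⁻¹ with hw
  have hfu : f' * u ^ n ≠ 0 := mul_ne_zero hf' (pow_ne_zero n hu)
  have hw0 : w ≠ 0 := mul_ne_zero hf (inv_ne_zero hfu)
  have hword : ∀ v : Place K F, v.ord w = 0 := by
    intro v
    rw [hw, v.ord_mul hf (inv_ne_zero hfu), v.ord_inv, v.ord_mul hf' (pow_ne_zero n hu),
      Setup.ord_pow, ← hDf v, ← hDf' v, ← hDu v]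
    ring
  obtain ⟨a, ha⟩ := H.const w hw0 hword
  obtain ⟨b, rfl⟩ := H.rootK a
  have hb0 : algebraMap K F b ≠ 0 := by
    intro hb
    apply hw0
    rw [← ha, map_pow, hb, zero_pow hn]
  have hfw : f = (algebraMap K F b * u) ^ n * f' := by
    have : f = w * (f' * u ^ n) := by
      rw [hw, mul_assoc, inv_mul_cancel₀ hfu, mul_one]
    rw [this, ← ha, map_pow]
    ring
  -- the invariant element `t = Φ (b u)`
  set t : M := S.Φ (algebraMap K F b * u) with ht
  have ht0 : t ≠ 0 := S.Φ_ne_zero (mul_ne_zero hb0 hu)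
  have hpow : (h / (t * h')) ^ n = 1 := by
    rw [div_pow, mul_pow, hh, hh', hfw, map_mul, map_pow, ← ht]
    exact div_self (mul_ne_zero (pow_ne_zero n ht0) (by rw [← hh']; exact pow_ne_zero n h0'))
  obtain ⟨z, hz⟩ := Setup.exists_const_of_pow_eq_one hn H.prim hpow
  have hh2 : h = (algebraMap C M (z : C) * t) * h' := by
    rw [hz, mul_assoc, div_mul_cancel₀ _ (mul_ne_zero ht0 h0')]
  have hinv : ∀ g : G, S.act g (algebraMap C M (z : C) * t) = algebraMap C M (z : C) * t := by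
    intro g
    rw [S.act_const_mul, ht, S.act_Φ]
  have hψ' : S.IsChar h ψ := by
    rw [hh2]
    exact hψ.invariant_mul S hinv
  exact hχ.unique S h0 hψ'

theorem IsKummer.add {n : ℕ} {x y : Pic0 K F} {χ ψ : G →* Cˣ} (hx : S.IsKummer n x χ)
    (hy : S.IsKummer n y ψ) : S.IsKummer n (x + y) (χ * ψ) := by
  obtain ⟨D, f, h, rfl, hf, hDf, hh, hχ⟩ := hx
  obtain ⟨D', f', h', rfl, hf', hDf', hh', hψ⟩ := hy
  refine ⟨D + D', f * f', h * h', rfl, mul_ne_zero hf hf', ?_, ?_, hχ.mul S hψ⟩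
  · intro v
    rw [v.ord_mul hf hf', ← hDf v, ← hDf' v]
    simp [mul_add]
  · rw [mul_pow, hh, hh', map_mul]

theorem isKummer_zero (n : ℕ) : S.IsKummer n (0 : Pic0 K F) 1 := by
  refine ⟨0, 1, 1, rfl, one_ne_zero, ?_, by simp, ?_⟩
  · intro v
    simp
  · exact S.isChar_one_of_invariant (fun g => map_one _)

/-- Change of level: Kummer data for `n` are Kummer data for `n * m`. -/
theorem IsKummer.mul_right {n : ℕ} {x : Pic0 K F} {χ : G →* Cˣ} (hx : S.IsKummer n x χ)
    (m : ℕ) : S.IsKummer (n * m) x χ := by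
  obtain ⟨D, f, h, rfl, hf, hDf, hh, hχ⟩ := hx
  refine ⟨D, f ^ m, h, rfl, pow_ne_zero m hf, ?_, ?_, hχ⟩
  · intro v
    rw [Setup.ord_pow, ← hDf v]
    push_cast
    ring
  · rw [pow_mul, hh, map_pow]

/-- Injectivity: a class with trivial Kummer character is trivial, under the descent
hypothesis (K5). -/
theorem IsKummer.eq_zero {n : ℕ} (hn : n ≠ 0)
    (hinj : ∀ (f : F) (h : M), f ≠ 0 → h ^ n = S.Φ f → (∀ g : G, S.act g h = h) →
      ∃ u : F, u ≠ 0 ∧ ∀ v : Place K F, v.ord f = (n : ℤ) * v.ord u)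
    {x : Pic0 K F} (hx : S.IsKummer n x 1) : x = 0 := by
  obtain ⟨D, f, h, rfl, hf, hDf, hh, hχ⟩ := hx
  obtain ⟨u, hu, hfu⟩ := hinj f h hf hh (fun g => hχ.invariant S g)
  rw [Setup.mk_eq_zero_iff]
  refine ⟨u, hu, fun v => ?_⟩
  have := (hDf v).trans (hfu v)
  exact mul_left_cancel₀ (Nat.cast_ne_zero.2 hn) this

/-- Parabolic triviality from the cusp hypothesis (K3). -/
theorem IsKummer.apply_eq_one {n : ℕ} (hn : n ≠ 0) (g : G)
    (hpar : ∀ (f : F) (h : M), f ≠ 0 → (∀ v : Place K F, (n : ℤ) ∣ v.ord f) → h ^ n = S.Φ f →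
      S.act g h = h)
    {x : Pic0 K F} {χ : G →* Cˣ} (hx : S.IsKummer n x χ) : χ g = 1 := by
  obtain ⟨D, f, h, rfl, hf, hDf, hh, hχ⟩ := hx
  have h0 : h ≠ 0 := IsKummer.root_ne_zero hn hf hh
  have e := hpar f h hf (fun v => ⟨_, (hDf v).symm⟩) hh
  have e2 : algebraMap C M (χ g : C) * h = algebraMap C M 1 * h := by
    rw [← hχ g, e, map_one, one_mul]
  have e3 := (algebraMap C M).injective (mul_right_cancel₀ h0 e2)
  exact Units.ext e3

/-! ### The Kummer map -/

variable (S)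

/-- The Kummer map on `n`-torsion classes. -/
def kappa {n : ℕ} (H : S.Hyp n) : Pic0.torsion K F n →+ Additive (G →* Cˣ) where
  toFun x := Additive.ofMul (S.exists_isKummer H x.2).choose
  map_zero' := by
    have h1 := (S.exists_isKummer H (0 : Pic0.torsion K F n).2).choose_spec
    have h2 : S.IsKummer n ((0 : Pic0.torsion K F n) : Pic0 K F) 1 := S.isKummer_zero n
    rw [h1.unique H h2]
    rfl
  map_add' x y := by
    have h1 := (S.exists_isKummer H (x + y).2).choose_spec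
    have hx := (S.exists_isKummer H x.2).choose_spec
    have hy := (S.exists_isKummer H y.2).choose_spec
    have h2 : S.IsKummer n ((x + y : Pic0.torsion K F n) : Pic0 K F) _ := hx.add hy
    rw [h1.unique H h2]
    rfl

variable {S}

theorem isKummer_kappa {n : ℕ} (H : S.Hyp n) (x : Pic0.torsion K F n) :
    S.IsKummer n (x : Pic0 K F) (Additive.toMul (S.kappa H x)) :=
  (S.exists_isKummer H x.2).choose_spec

theorem kappa_eq_of_isKummer {n : ℕ} (H : S.Hyp n) (x : Pic0.torsion K F n) {χ : G →* Cˣ}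
    (hχ : S.IsKummer n (x : Pic0 K F) χ) : S.kappa H x = Additive.ofMul χ := by
  have := (isKummer_kappa H x).unique H hχ
  rw [← this]
  rfl

/-- The values of `kappa n` are `n`-th roots of unity. -/
theorem kappa_pow_eq_one {n : ℕ} (H : S.Hyp n) (x : Pic0.torsion K F n) (g : G) :
    (Additive.toMul (S.kappa H x)) g ^ n = 1 :=
  (isKummer_kappa H x).pow_eq_one g

/-- Compatibility in `n`: on `n`-torsion classes `kappa (n * m)` agrees with `kappa n`. -/
theorem kappa_mul_right {n m : ℕ} (H : S.Hyp n) (H' : S.Hyp (n * m)) (x : Pic0 K F)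
    (hx : x ∈ Pic0.torsion K F n) (hx' : x ∈ Pic0.torsion K F (n * m)) :
    S.kappa H' ⟨x, hx'⟩ = S.kappa H ⟨x, hx⟩ := by
  have h1 := (isKummer_kappa H ⟨x, hx⟩).mul_right m
  rw [kappa_eq_of_isKummer H' ⟨x, hx'⟩ h1]
  rfl

/-- Injectivity of the Kummer map from the descent hypothesis (K5). -/
theorem kappa_injective {n : ℕ} (H : S.Hyp n)
    (hinj : ∀ (f : F) (h : M), f ≠ 0 → h ^ n = S.Φ f → (∀ g : G, S.act g h = h) →
      ∃ u : F, u ≠ 0 ∧ ∀ v : Place K F, v.ord f = (n : ℤ) * v.ord u) :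
    Function.Injective (S.kappa H) := by
  rw [injective_iff_map_eq_zero]
  intro x hx
  have h1 := isKummer_kappa H x
  rw [hx] at h1
  exact Subtype.ext (IsKummer.eq_zero H.pos hinj h1)

/-- Triviality of the Kummer characters on an element satisfying the cusp hypothesis (K3). -/
theorem kappa_apply_eq_one {n : ℕ} (H : S.Hyp n) (g : G)
    (hpar : ∀ (f : F) (h : M), f ≠ 0 → (∀ v : Place K F, (n : ℤ) ∣ v.ord f) → h ^ n = S.Φ f →
      S.act g h = h)
    (x : Pic0.torsion K F n) : (Additive.toMul (S.kappa H x)) g = 1 :=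
  (isKummer_kappa H x).apply_eq_one H.pos g hpar

theorem map_mem_torsion {n : ℕ} (T : Pic0 K F →+ Pic0 K F) {x : Pic0 K F}
    (hx : x ∈ Pic0.torsion K F n) : T x ∈ Pic0.torsion K F n := by
  rw [Pic0.mem_torsion] at hx ⊢
  rw [← map_zsmul, hx, map_zero]

/-- Equivariance: if an endomorphism `T` of `Pic0` and an endomorphism `Tc` of the character
group are compatible on Kummer data, then `kappa (T x) = Tc (kappa x)`. -/
theorem kappa_equivariant {n : ℕ} (H : S.Hyp n) (T : Pic0 K F →+ Pic0 K F)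
    (Tc : (G →* Cˣ) → (G →* Cˣ))
    (hT : ∀ (x : Pic0 K F) (χ : G →* Cˣ), S.IsKummer n x χ → S.IsKummer n (T x) (Tc χ))
    (x : Pic0.torsion K F n) :
    S.kappa H ⟨T x, map_mem_torsion T x.2⟩ = Additive.ofMul (Tc (Additive.toMul (S.kappa H x))) :=
  kappa_eq_of_isKummer H _ (hT _ _ (isKummer_kappa H x))

end Setup

end Fermat.Agent.S30.Kappa6580
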