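import Fermat.Agent.S30.Kappa6580.Abstract
import Fermat.Prelude.Def_AlgebraicCurve_Correspondence

/-!
# GALREP / KUM-K6: correspondences on Kummer data (helper6580)

Divisor side of the Hecke equivariance of the Kummer map, for the Prelude correspondence
`Pic0.correspondence φ ψ = ψ_* ∘ φ^*`: if `n D = div f` then
`n (ψ_* φ^* D) = div (Norm_ψ (φ f))`, so Kummer data `(D, f, h, χ)` for `x` are sent to Kummer
data `(ψ_* φ^* D, Norm_ψ (φ f), h', Tc χ)` for `correspondence x` as soon as a root `h'` of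
`Φ (Norm_ψ (φ f))` with character `Tc χ` is provided (transfer rule).
-/

set_option autoImplicit false
set_option linter.style.haveILetI false

noncomputable section

namespace Fermat.Agent.S30.Kappa6580

open AlgebraicCurve

section

variable {K F F' : Type*} [Field K] [Field F] [Field F'] [Algebra K F] [Algebra K F']

/-- The norm `F' → F` along `ψ : F → F'`. -/
def normAlong (ψ : F →ₐ[K] F') (y : F') : F :=
  letI := algebraAlong ψ
  Algebra.norm F y

theorem normAlong_ne_zero (ψ : F →ₐ[K] F') (hfin : FiniteAlong K ψ) {y : F'} (hy : y ≠ 0) :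
    normAlong ψ y ≠ 0 := by
  letI := algebraAlong ψ
  haveI : Module.Finite F F' := hfin
  exact Algebra.norm_ne_zero_iff.mpr hy

variable [HasPrincipalDivisors K F']

/-- The correspondence of a principal divisor `div f` is `div (Norm_ψ (φ f))`. -/
theorem correspondence_apply_of_ord (φ ψ : F →ₐ[K] F') (hφ : φ.toRingHom.IsIntegral)
    (hψ : ψ.toRingHom.IsIntegral) (hfin : FiniteAlong K ψ) (hN : NormFormulaAlong K ψ hfin)
    {E : Divisor K F} {f : F} (hf : f ≠ 0) (hE : ∀ v : Place K F, E v = v.ord f)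
    (v : Place K F) :
    Divisor.correspondence φ ψ hφ hψ E v = v.ord (normAlong ψ (φ f)) := by
  have hpull : ∀ w : Place K F', Divisor.pullbackAlong φ hφ E w = w.ord (φ f) := by
    intro w
    rw [Divisor.pullbackAlong_apply, hE, ← Place.ord_restrictAlong]
  have hφf : φ f ≠ 0 := by
    rw [Ne, map_eq_zero]
    exact hf
  rw [Divisor.correspondence_apply]
  exact hN (φ f) hφf _ hpull v

end

namespace Setup

variable {K F M C G : Type*} [Field K] [Field F] [Algebra K F] [Field M] [Field C]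
  [Algebra C M] [Group G] {S : Setup K F M C G}

/-- **Correspondences on Kummer data.** -/
theorem IsKummer.correspondence {F' : Type*} [Field F'] [Algebra K F']
    [HasPrincipalDivisors K F'] (φ ψ : F →ₐ[K] F') (hφ : φ.toRingHom.IsIntegral)
    (hψ : ψ.toRingHom.IsIntegral) (hFI : FundamentalIdentityAlong K φ hφ)
    (hfin : FiniteAlong K ψ) (hN : NormFormulaAlong K ψ hfin) {n : ℕ}
    (Tc : (G →* Cˣ) → (G →* Cˣ))
    (hW : ∀ (f : F) (h : M) (χ : G →* Cˣ), f ≠ 0 → h ^ n = S.Φ f → S.IsChar h χ →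
      ∃ h' : M, h' ^ n = S.Φ (normAlong ψ (φ f)) ∧ S.IsChar h' (Tc χ))
    {x : Pic0 K F} {χ : G →* Cˣ} (hx : S.IsKummer n x χ) :
    S.IsKummer n (Pic0.correspondence φ ψ hφ hψ hFI hfin hN x) (Tc χ) := by
  obtain ⟨D, f, h, rfl, hf, hDf, hh, hχ⟩ := hx
  obtain ⟨h', hh', hχ'⟩ := hW f h χ hf hh hχ
  have hφf : φ f ≠ 0 := by
    rw [Ne, map_eq_zero]
    exact hf
  refine ⟨Pic0.degZeroCorrespondence φ ψ hφ hψ hFI D, normAlong ψ (φ f), h',
    (Pic0.correspondence_mk φ ψ hφ hψ hFI hfin hN D).symm, normAlong_ne_zero ψ hfin hφf, ?_,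
    hh', hχ'⟩
  intro v
  rw [Pic0.coe_degZeroCorrespondence]
  have hE : ∀ w : Place K F, ((n : ℤ) • (D : Divisor K F)) w = w.ord f := by
    intro w
    rw [← hDf w]
    simp
  have h1 := correspondence_apply_of_ord φ ψ hφ hψ hfin hN hf hE v
  rw [← h1, map_zsmul]
  simp

/-- Hecke equivariance of the abstract Kummer map for a Prelude correspondence. -/
theorem kappa_correspondence {F' : Type*} [Field F'] [Algebra K F']
    [HasPrincipalDivisors K F'] (φ ψ : F →ₐ[K] F') (hφ : φ.toRingHom.IsIntegral)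
    (hψ : ψ.toRingHom.IsIntegral) (hFI : FundamentalIdentityAlong K φ hφ)
    (hfin : FiniteAlong K ψ) (hN : NormFormulaAlong K ψ hfin) {n : ℕ} (H : S.Hyp n)
    (Tc : (G →* Cˣ) → (G →* Cˣ))
    (hW : ∀ (f : F) (h : M) (χ : G →* Cˣ), f ≠ 0 → h ^ n = S.Φ f → S.IsChar h χ →
      ∃ h' : M, h' ^ n = S.Φ (normAlong ψ (φ f)) ∧ S.IsChar h' (Tc χ))
    (x : Pic0.torsion K F n) :
    S.kappa H ⟨Pic0.correspondence φ ψ hφ hψ hFI hfin hN x,
        map_mem_torsion (Pic0.correspondence φ ψ hφ hψ hFI hfin hN) x.2⟩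
      = Additive.ofMul (Tc (Additive.toMul (S.kappa H x))) :=
  kappa_equivariant H (Pic0.correspondence φ ψ hφ hψ hFI hfin hN) Tc
    (fun _ _ hx => hx.correspondence φ ψ hφ hψ hFI hfin hN Tc hW) x

end Setup

end Fermat.Agent.S30.Kappa6580
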