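import Fermat.Agent.S30.Kappa6580.Modular

/-!
# GALREP / KUM-K6b on the landed S24 library (helper6580)

* `holPre α`, `merPre α` : precomposition with `τ ↦ α • τ` (`α ∈ GL(2,ℝ)`, `det α > 0`) as ring
  endomorphisms of `B2M.HolH`, `B2M.MerH`; `merPre_merPre`, `merAut_eq_merPre`, `merPre_const`.
* `isChar_prod_merPre` : **transfer rule** — if `Γ₀(N)` acts on `h` through `χ` and
  `α x * γ = γ' γ x * α (σ γ x)` is a system of Hecke coset relations, then `Γ₀(N)` acts on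
  `∏ x, merPre (α x) h` (the function `τ ↦ ∏ x, h (α x • τ)`) through `γ ↦ ∏ x, χ (γ' γ x)`,
  i.e. through the Hecke transfer `T χ` of the E2 packages.
-/

set_option autoImplicit false
set_option linter.unusedSectionVars false

noncomputable section

open UpperHalfPlane ModularCurve AlgebraicCurve
open scoped MatrixGroups Manifold

namespace Fermat.Agent.S30.Kappa6580

open Fermat.Agent.S24

/-- Precomposition with `τ ↦ α • τ` on holomorphic functions. -/
def holPre (α : GL (Fin 2) ℝ) (hα : 0 < α.det.val) : B2M.HolH →+* B2M.HolH where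
  toFun f := ⟨fun τ => f.1 (α • τ), f.2.comp (mdifferentiable_smul hα)⟩
  map_one' := rfl
  map_mul' _ _ := rfl
  map_zero' := rfl
  map_add' _ _ := rfl

theorem holPre_apply (α : GL (Fin 2) ℝ) (hα : 0 < α.det.val) (f : B2M.HolH) (τ : ℍ) :
    (holPre α hα f).1 τ = f.1 (α • τ) := rfl

theorem holPre_injective (α : GL (Fin 2) ℝ) (hα : 0 < α.det.val) :
    Function.Injective (holPre α hα) := by
  intro f g hfg
  apply Subtype.ext
  funext τ
  have := congrArg (fun u : B2M.HolH => u.1 (α⁻¹ • τ)) hfg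
  simpa [holPre_apply, smul_inv_smul] using this

/-- Precomposition with `τ ↦ α • τ` on `MerH`. -/
def merPre (α : GL (Fin 2) ℝ) (hα : 0 < α.det.val) : B2M.MerH →+* B2M.MerH :=
  IsFractionRing.lift (g := (algebraMap B2M.HolH B2M.MerH).comp (holPre α hα))
    ((IsFractionRing.injective B2M.HolH B2M.MerH).comp (holPre_injective α hα))

theorem merPre_algebraMap (α : GL (Fin 2) ℝ) (hα : 0 < α.det.val) (f : B2M.HolH) :
    merPre α hα (algebraMap B2M.HolH B2M.MerH f)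
      = algebraMap B2M.HolH B2M.MerH (holPre α hα f) := by
  rw [merPre, IsFractionRing.lift_algebraMap]
  rfl

theorem merPre_const (α : GL (Fin 2) ℝ) (hα : 0 < α.det.val) (z : ℂ) :
    merPre α hα (algebraMap ℂ B2M.MerH z) = algebraMap ℂ B2M.MerH z := by
  rw [algebraMap_C_MerH, merPre_algebraMap]
  congr 1

theorem det_mul_pos {α β : GL (Fin 2) ℝ} (hα : 0 < α.det.val) (hβ : 0 < β.det.val) :
    0 < (β * α).det.val := by
  rw [map_mul, Units.val_mul]
  exact mul_pos hβ hα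

theorem merPre_merPre (α β : GL (Fin 2) ℝ) (hα : 0 < α.det.val) (hβ : 0 < β.det.val)
    (h : B2M.MerH) :
    merPre α hα (merPre β hβ h) = merPre (β * α) (det_mul_pos hα hβ) h := by
  have e : (merPre α hα).comp (merPre β hβ) = merPre (β * α) (det_mul_pos hα hβ) := by
    apply IsLocalization.ringHom_ext (nonZeroDivisors B2M.HolH)
    ext f
    simp only [RingHom.comp_apply, merPre_algebraMap]
    congr 1
    apply Subtype.ext
    funext τ
    simp only [holPre_apply, mul_smul]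
  exact congrArg (fun s : B2M.MerH →+* B2M.MerH => s h) e

theorem merPre_congr {α β : GL (Fin 2) ℝ} (hα : 0 < α.det.val) (hβ : 0 < β.det.val)
    (e : α = β) (h : B2M.MerH) : merPre α hα h = merPre β hβ h := by
  subst e
  rfl

theorem merAut_eq_merPre (γ : SL(2, ℤ)) (h : B2M.MerH) :
    B2M.merAut γ h = merPre (Matrix.SpecialLinearGroup.mapGL ℝ γ⁻¹) (B2M.det_mapGL_pos γ⁻¹) h := by
  have e : ((B2M.merAut γ : B2M.MerH ≃+* B2M.MerH) : B2M.MerH →+* B2M.MerH)
      = merPre (Matrix.SpecialLinearGroup.mapGL ℝ γ⁻¹) (B2M.det_mapGL_pos γ⁻¹) := by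
    apply IsLocalization.ringHom_ext (nonZeroDivisors B2M.HolH)
    ext f
    simp only [RingHom.comp_apply, RingHom.coe_coe, B2M.merAut_algebraMap, merPre_algebraMap]
    congr 1
  exact congrArg (fun s : B2M.MerH →+* B2M.MerH => s h) e

theorem merPre_mapGL (γ : SL(2, ℤ)) (h : B2M.MerH) :
    merPre (Matrix.SpecialLinearGroup.mapGL ℝ γ) (B2M.det_mapGL_pos γ) h = B2M.merAut γ⁻¹ h := by
  rw [merAut_eq_merPre]
  exact merPre_congr _ _ (by rw [inv_inv]) h

variable {N : ℕ} [NeZero N]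

/-- **Transfer rule on `MerH`**, one element: for a system of Hecke coset relations
`α x * γ = γ' x * α (σ x)`, translation by `γ⁻¹` multiplies `∏ x, merPre (α x) h` by
`(∏ x, χ (γ' x))⁻¹`. -/
theorem merAut_inv_prod_merPre {ι : Type*} [Fintype ι] (α : ι → GL (Fin 2) ℝ)
    (hα : ∀ x, 0 < (α x).det.val) {h : B2M.MerH} {χ : ↥(CongruenceSubgroup.Gamma0 N) →* ℂˣ}
    (hχ : (setup N).IsChar h χ) (γ : ↥(CongruenceSubgroup.Gamma0 N)) (σ : Equiv.Perm ι)
    (γ' : ι → ↥(CongruenceSubgroup.Gamma0 N))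
    (hrel : ∀ x, α x * Matrix.SpecialLinearGroup.mapGL ℝ (γ : SL(2, ℤ))
      = Matrix.SpecialLinearGroup.mapGL ℝ (γ' x : SL(2, ℤ)) * α (σ x)) :
    B2M.merAut ((γ : SL(2, ℤ))⁻¹) (∏ x, merPre (α x) (hα x) h)
      = algebraMap ℂ B2M.MerH (((∏ x, χ (γ' x))⁻¹ : ℂˣ) : ℂ) * ∏ x, merPre (α x) (hα x) h := by
  have key := (setup N).act_prod_of_isChar (fun x => merPre (α x) (hα x))
    (fun x z => merPre_const (α x) (hα x) z) hχ γ⁻¹ σ (fun x => (γ' x)⁻¹) (fun x => by
      show B2M.merAut ((γ⁻¹ : ↥(CongruenceSubgroup.Gamma0 N)) : SL(2, ℤ)) (merPre (α x) (hα x) h)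
        = merPre (α (σ x)) (hα (σ x))
          (B2M.merAut (((γ' x)⁻¹ : ↥(CongruenceSubgroup.Gamma0 N)) : SL(2, ℤ)) h)
      rw [InvMemClass.coe_inv, InvMemClass.coe_inv, ← merPre_mapGL, ← merPre_mapGL,
        merPre_merPre, merPre_merPre]
      exact merPre_congr _ _ (hrel x) h)
  have e : (∏ x, χ ((γ' x)⁻¹) : ℂˣ) = (∏ x, χ (γ' x))⁻¹ := by
    rw [← Finset.prod_inv_distrib]
    exact Finset.prod_congr rfl fun x _ => map_inv χ (γ' x)
  rw [← e]
  exact key

/-- **Transfer rule on `MerH`** in character form: `∏ x, merPre (α x) h` has the character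
`χ'` whenever `χ' γ = ∏ x, χ (γ' γ x)` for a system of Hecke coset relations. -/
theorem isChar_prod_merPre {ι : Type*} [Fintype ι] (α : ι → GL (Fin 2) ℝ)
    (hα : ∀ x, 0 < (α x).det.val) {h : B2M.MerH} {χ χ' : ↥(CongruenceSubgroup.Gamma0 N) →* ℂˣ}
    (hχ : (setup N).IsChar h χ) (σ : ↥(CongruenceSubgroup.Gamma0 N) → Equiv.Perm ι)
    (γ' : ↥(CongruenceSubgroup.Gamma0 N) → ι → ↥(CongruenceSubgroup.Gamma0 N))
    (hrel : ∀ (γ : ↥(CongruenceSubgroup.Gamma0 N)) (x : ι),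
      α x * Matrix.SpecialLinearGroup.mapGL ℝ (γ : SL(2, ℤ))
        = Matrix.SpecialLinearGroup.mapGL ℝ (γ' γ x : SL(2, ℤ)) * α (σ γ x))
    (hχ' : ∀ γ : ↥(CongruenceSubgroup.Gamma0 N), χ' γ = ∏ x, χ (γ' γ x)) :
    (setup N).IsChar (∏ x, merPre (α x) (hα x) h) χ' := by
  intro g
  have key := merAut_inv_prod_merPre α hα hχ g⁻¹ (σ g⁻¹) (γ' g⁻¹) (hrel g⁻¹)
  have e : ((g⁻¹ : ↥(CongruenceSubgroup.Gamma0 N)) : SL(2, ℤ))⁻¹ = (g : SL(2, ℤ)) := by
    rw [InvMemClass.coe_inv, inv_inv]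
  have e2 : (∏ x, χ (γ' g⁻¹ x))⁻¹ = χ' g := by
    rw [← hχ' g⁻¹, map_inv, inv_inv]
  rw [e, e2] at key
  exact key

end Fermat.Agent.S30.Kappa6580
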