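import Fermat.Agent.S30.Kappa6580.Abstract

/-!
# GALREP / KUM-K6b: the transfer rule (helper6580)

If `G` acts on `h` through the character `χ`, `E : ι → M →+* M` is a finite family of ring
endomorphisms fixing the constants (precomposition with the Hecke representatives `δ_x`) and
`act g (E x h') = E (σ x) (act (c x) h')` (from `δ_x γ = γ'_x δ_{σ x}`), then `G`-translation by `g`
multiplies `∏ x, E x h` by `∏ x, χ (c x)`: the Kummer character of the Hecke translate is the
double coset transfer of the Kummer character.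
-/

set_option autoImplicit false

noncomputable section

namespace Fermat.Agent.S30.Kappa6580

namespace Setup

variable {K F M C G : Type*} [Field K] [Field F] [Algebra K F] [Field M] [Field C]
  [Algebra C M] [Group G] (S : Setup K F M C G)

/-- **Transfer rule.** -/
theorem act_prod_of_isChar {ι : Type*} [Fintype ι] (E : ι → M →+* M)
    (hE : ∀ (x : ι) (z : C), E x (algebraMap C M z) = algebraMap C M z)
    {h : M} {χ : G →* Cˣ} (hχ : S.IsChar h χ) (g : G) (σ : Equiv.Perm ι) (c : ι → G)
    (hrel : ∀ x : ι, S.act g (E x h) = E (σ x) (S.act (c x) h)) :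
    S.act g (∏ x, E x h) = algebraMap C M ((∏ x, χ (c x) : Cˣ) : C) * ∏ x, E x h := by
  rw [map_prod]
  have h1 : ∀ x : ι, S.act g (E x h) = algebraMap C M (χ (c x) : C) * E (σ x) h := by
    intro x
    rw [hrel x, hχ (c x), map_mul, hE]
  rw [Finset.prod_congr rfl (fun x _ => h1 x), Finset.prod_mul_distrib,
    Equiv.prod_comp σ (fun x => E x h), Units.coe_prod, map_prod]

/-- The transfer rule in `IsChar` form: if `χ'` is a character with `χ' g = ∏ x, χ (c g x)`
for all `g`, then `∏ x, E x h` has character `χ'`. -/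
theorem isChar_prod {ι : Type*} [Fintype ι] (E : ι → M →+* M)
    (hE : ∀ (x : ι) (z : C), E x (algebraMap C M z) = algebraMap C M z)
    {h : M} {χ χ' : G →* Cˣ} (hχ : S.IsChar h χ) (σ : G → Equiv.Perm ι) (c : G → ι → G)
    (hrel : ∀ (g : G) (x : ι), S.act g (E x h) = E (σ g x) (S.act (c g x) h))
    (hχ' : ∀ g : G, χ' g = ∏ x, χ (c g x)) :
    S.IsChar (∏ x, E x h) χ' := by
  intro g
  rw [S.act_prod_of_isChar E hE hχ g (σ g) (c g) (hrel g), hχ' g]

end Setup

end Fermat.Agent.S30.Kappa6580
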