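import Fermat.Agent.S24.Modular
import Fermat.Agent.S30.Kappa6580.TransferRule

/-!
# GALREP / KUM-K7 KAPPA on the landed S24 library (helper6580)

The abstract Kummer setup for `K = ℚ̄`, `F = ℚ̄(X₀(N))`, `M = B2M.MerH`, `C = ℂ`,
`G = Γ₀(N)`, `Φ = modMerToMerH ∘ Theta`, and the Kummer map
`kappaMod N n : Pic0.torsion ℚ̄ F n →+ Additive (Γ₀(N) →* ℂˣ)` under the single analytic
hypothesis `RootHyp N n` (= K1 ROOT + K4 ORD of the KUM design).
-/

set_option autoImplicit false
set_option linter.unusedSectionVars false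

noncomputable section

open ModularCurve AlgebraicCurve IntermediateField
open scoped MatrixGroups

namespace Fermat.Agent.S30.Kappa6580

open Fermat.Agent.S24

variable (N : ℕ) [NeZero N]

/-- The bridge `ℚ̄(X₀(N)) → MerH`. -/
def Phi : ↥(modularFunctionFieldBar N) →+* B2M.MerH := (modMerToMerH N).comp (Theta N)

theorem Phi_apply (f : ↥(modularFunctionFieldBar N)) : Phi N f = modMerToMerH N (Theta N f) := rfl

/-- `Γ₀(N)` acting on `MerH`. -/
def gammaAct : ↥(CongruenceSubgroup.Gamma0 N) →* (B2M.MerH ≃+* B2M.MerH) :=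
  B2M.merAut.comp (Subgroup.subtype _)

theorem gammaAct_apply (γ : ↥(CongruenceSubgroup.Gamma0 N)) (h : B2M.MerH) :
    gammaAct N γ h = B2M.merAut (γ : SL(2, ℤ)) h := rfl

theorem merAut_Phi (γ : SL(2, ℤ)) (hγ : γ ∈ CongruenceSubgroup.Gamma0 N)
    (f : ↥(modularFunctionFieldBar N)) : B2M.merAut γ (Phi N f) = Phi N f := by
  rw [Phi_apply, ← modMerToMerH_modAut]
  have := b6_hH N γ hγ f
  rw [b6_act_apply] at this
  rw [this]

theorem algebraMap_C_MerH (z : ℂ) :
    algebraMap ℂ B2M.MerH z = algebraMap B2M.HolH B2M.MerH (algebraMap ℂ B2M.HolH z) :=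
  IsScalarTower.algebraMap_apply ℂ B2M.HolH B2M.MerH z

theorem merAut_const (γ : SL(2, ℤ)) (z : ℂ) :
    B2M.merAut γ (algebraMap ℂ B2M.MerH z) = algebraMap ℂ B2M.MerH z := by
  rw [algebraMap_C_MerH, B2M.merAut_algebraMap]
  congr 1

/-- The abstract Kummer setup on the landed S24 library. -/
def setup : Setup (AlgebraicClosure ℚ) ↥(modularFunctionFieldBar N) B2M.MerH ℂ
    ↥(CongruenceSubgroup.Gamma0 N) where
  Φ := Phi N
  act := gammaAct N
  act_Φ γ f := merAut_Phi N γ γ.2 f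
  act_const γ z := merAut_const γ z

theorem exists_algebraMap_eq_of_isAlgebraic {k L : Type*} [Field k] [Field L] [Algebra k L]
    [IsAlgClosed k] {x : L} (hx : IsAlgebraic k x) : ∃ a : k, algebraMap k L a = x := by
  have hint : IsIntegral k x := hx.isIntegral
  have h : (minpoly k x).degree = 1 :=
    IsAlgClosed.degree_eq_one_of_irreducible k (minpoly.irreducible hint)
  have hq : (minpoly k x).leadingCoeff = 1 := minpoly.monic hint
  have h0 : Polynomial.aeval x (minpoly k x) = 0 := minpoly.aeval k x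
  rw [Polynomial.eq_X_add_C_of_degree_eq_one h, hq, Polynomial.C_1, one_mul, Polynomial.aeval_add,
    Polynomial.aeval_X, Polynomial.aeval_C, add_eq_zero_iff_eq_neg] at h0
  exact ⟨-(minpoly k x).coeff 0, by rw [map_neg]; exact h0.symm⟩

/-- A function with trivial divisor is constant. -/
theorem exists_const_of_ord_eq_zero (f : ↥(modularFunctionFieldBar N))
    (hord : ∀ v : Place (AlgebraicClosure ℚ) ↥(modularFunctionFieldBar N), v.ord f = 0) :
    ∃ a : AlgebraicClosure ℚ,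
      algebraMap (AlgebraicClosure ℚ) ↥(modularFunctionFieldBar N) a = f := by
  by_contra hcon
  have htr : Transcendental (AlgebraicClosure ℚ) f := fun halg =>
    hcon (exists_algebraMap_eq_of_isAlgebraic halg)
  have := finiteDimensional_jBar N
  have : FiniteDimensional (AlgebraicClosure ℚ)⟮f⟯ ↥(modularFunctionFieldBar N) :=
    A564.finiteDimensional_adjoin_of_transcendental (jBar N) f (jBar_transcendental N) htr
  obtain ⟨T, -, hsum⟩ := A564.SO.exists_finset_zeros_sum_ord f htr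
  have h0 : ∑ v ∈ T, v.ord f = 0 := Finset.sum_eq_zero fun v _ => hord v
  have hpos : 0 < Module.finrank (AlgebraicClosure ℚ)⟮f⟯ ↥(modularFunctionFieldBar N) :=
    Module.finrank_pos
  rw [h0] at hsum
  have : (0 : ℤ) < (Module.finrank (AlgebraicClosure ℚ)⟮f⟯ ↥(modularFunctionFieldBar N) : ℤ) := by
    exact_mod_cast hpos
  omega

/-- The analytic hypothesis (K1 ROOT + K4 ORD): a function whose divisor is divisible by `n`
has an `n`-th root in `MerH` after applying the bridge. -/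
def RootHyp (n : ℕ) : Prop :=
  ∀ f : ↥(modularFunctionFieldBar N), f ≠ 0 →
    (∀ v : Place (AlgebraicClosure ℚ) ↥(modularFunctionFieldBar N), (n : ℤ) ∣ v.ord f) →
    ∃ h : B2M.MerH, h ^ n = Phi N f

/-- The descent hypothesis (K5 INJ). -/
def InjHyp (n : ℕ) : Prop :=
  ∀ (f : ↥(modularFunctionFieldBar N)) (h : B2M.MerH), f ≠ 0 → h ^ n = Phi N f →
    (∀ γ : SL(2, ℤ), γ ∈ CongruenceSubgroup.Gamma0 N → B2M.merAut γ h = h) →
    ∃ u : ↥(modularFunctionFieldBar N), u ≠ 0 ∧
      ∀ v : Place (AlgebraicClosure ℚ) ↥(modularFunctionFieldBar N), v.ord f = (n : ℤ) * v.ord u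

/-- The cusp hypothesis (K3 PARAB) at an element `γ`. -/
def ParHyp (n : ℕ) (γ : SL(2, ℤ)) : Prop :=
  ∀ (f : ↥(modularFunctionFieldBar N)) (h : B2M.MerH), f ≠ 0 →
    (∀ v : Place (AlgebraicClosure ℚ) ↥(modularFunctionFieldBar N), (n : ℤ) ∣ v.ord f) →
    h ^ n = Phi N f → B2M.merAut γ h = h

theorem hyp {n : ℕ} (hn : n ≠ 0) (hroot : RootHyp N n) : (setup N).Hyp n where
  pos := hn
  prim := ⟨_, Complex.isPrimitiveRoot_exp n hn⟩
  rootK a := IsAlgClosed.exists_pow_nat_eq a (Nat.pos_of_ne_zero hn)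
  const f _ hord := exists_const_of_ord_eq_zero N f hord
  root := hroot

/-- **The Kummer map** `J₀(N)[n] → Hom(Γ₀(N), ℂˣ)`. -/
def kappaMod {n : ℕ} (hn : n ≠ 0) (hroot : RootHyp N n) :
    Pic0.torsion (AlgebraicClosure ℚ) ↥(modularFunctionFieldBar N) n →+
      Additive (↥(CongruenceSubgroup.Gamma0 N) →* ℂˣ) :=
  (setup N).kappa (hyp N hn hroot)

variable {N}

/-- Characterisation: `kappaMod x` is the character of any `n`-th root `h` of `Phi f`, for any
degree zero divisor `D` in the class `x` and any `f` with `div f = n D`. -/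
theorem kappaMod_spec {n : ℕ} (hn : n ≠ 0) (hroot : RootHyp N n)
    (x : Pic0.torsion (AlgebraicClosure ℚ) ↥(modularFunctionFieldBar N) n)
    (D : Divisor.degZero (K := AlgebraicClosure ℚ) (F := ↥(modularFunctionFieldBar N)))
    (hD : Pic0.mk D = (x : Pic0 (AlgebraicClosure ℚ) ↥(modularFunctionFieldBar N)))
    (f : ↥(modularFunctionFieldBar N)) (hf : f ≠ 0)
    (hDf : ∀ v : Place (AlgebraicClosure ℚ) ↥(modularFunctionFieldBar N),
      (n : ℤ) * (D : Divisor (AlgebraicClosure ℚ) ↥(modularFunctionFieldBar N)) v = v.ord f)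
    (h : B2M.MerH) (hh : h ^ n = Phi N f) (γ : ↥(CongruenceSubgroup.Gamma0 N)) :
    B2M.merAut (γ : SL(2, ℤ)) h =
      algebraMap ℂ B2M.MerH ((Additive.toMul (kappaMod N hn hroot x) γ : ℂˣ) : ℂ) * h := by
  have H := hyp N hn hroot
  have h0 : h ≠ 0 := Setup.IsKummer.root_ne_zero (S := setup N) hn hf hh
  obtain ⟨χ, hχ⟩ := (setup N).exists_isChar hn H.prim h0 (fun g => by
    rw [hh]; exact (setup N).act_Φ g f)
  have hK : (setup N).IsKummer n (x : Pic0 (AlgebraicClosure ℚ) ↥(modularFunctionFieldBar N)) χ :=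
    ⟨D, f, h, hD, hf, hDf, hh, hχ⟩
  have e : kappaMod N hn hroot x = Additive.ofMul χ := Setup.kappa_eq_of_isKummer H x hK
  rw [e]
  exact hχ γ

/-- Existence form of the characterisation. -/
theorem exists_kappaMod_data {n : ℕ} (hn : n ≠ 0) (hroot : RootHyp N n)
    (x : Pic0.torsion (AlgebraicClosure ℚ) ↥(modularFunctionFieldBar N) n) :
    ∃ (D : Divisor.degZero (K := AlgebraicClosure ℚ) (F := ↥(modularFunctionFieldBar N)))
      (f : ↥(modularFunctionFieldBar N)) (h : B2M.MerH),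
      Pic0.mk D = (x : Pic0 (AlgebraicClosure ℚ) ↥(modularFunctionFieldBar N)) ∧ f ≠ 0 ∧
      (∀ v : Place (AlgebraicClosure ℚ) ↥(modularFunctionFieldBar N),
        (n : ℤ) * (D : Divisor (AlgebraicClosure ℚ) ↥(modularFunctionFieldBar N)) v = v.ord f) ∧
      h ^ n = Phi N f ∧
      ∀ γ : ↥(CongruenceSubgroup.Gamma0 N), B2M.merAut (γ : SL(2, ℤ)) h =
        algebraMap ℂ B2M.MerH ((Additive.toMul (kappaMod N hn hroot x) γ : ℂˣ) : ℂ) * h :=
  Setup.isKummer_kappa (hyp N hn hroot) x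

/-- The values are `n`-th roots of unity. -/
theorem kappaMod_pow_eq_one {n : ℕ} (hn : n ≠ 0) (hroot : RootHyp N n)
    (x : Pic0.torsion (AlgebraicClosure ℚ) ↥(modularFunctionFieldBar N) n)
    (γ : ↥(CongruenceSubgroup.Gamma0 N)) :
    (Additive.toMul (kappaMod N hn hroot x)) γ ^ n = 1 :=
  Setup.kappa_pow_eq_one (hyp N hn hroot) x γ

/-- Compatibility in `n`. -/
theorem kappaMod_mul_right {n m : ℕ} (hn : n ≠ 0) (hm : m ≠ 0) (hroot : RootHyp N n)
    (hroot' : RootHyp N (n * m)) (x : Pic0 (AlgebraicClosure ℚ) ↥(modularFunctionFieldBar N))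
    (hx : x ∈ Pic0.torsion (AlgebraicClosure ℚ) ↥(modularFunctionFieldBar N) n)
    (hx' : x ∈ Pic0.torsion (AlgebraicClosure ℚ) ↥(modularFunctionFieldBar N) (n * m)) :
    kappaMod N (Nat.mul_ne_zero hn hm) hroot' ⟨x, hx'⟩ = kappaMod N hn hroot ⟨x, hx⟩ :=
  Setup.kappa_mul_right (hyp N hn hroot) (hyp N (Nat.mul_ne_zero hn hm) hroot') x hx hx'

/-- Injectivity of the Kummer map from the descent hypothesis (K5). -/
theorem kappaMod_injective {n : ℕ} (hn : n ≠ 0) (hroot : RootHyp N n) (hinj : InjHyp N n) :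
    Function.Injective (kappaMod N hn hroot) :=
  Setup.kappa_injective (hyp N hn hroot) (fun f h hf hh hinv =>
    hinj f h hf hh (fun γ hγ => hinv ⟨γ, hγ⟩))

/-- Triviality on elements satisfying the cusp hypothesis (K3). -/
theorem kappaMod_apply_eq_one {n : ℕ} (hn : n ≠ 0) (hroot : RootHyp N n)
    (γ : ↥(CongruenceSubgroup.Gamma0 N)) (hpar : ParHyp N n (γ : SL(2, ℤ)))
    (x : Pic0.torsion (AlgebraicClosure ℚ) ↥(modularFunctionFieldBar N) n) :
    (Additive.toMul (kappaMod N hn hroot x)) γ = 1 :=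
  Setup.kappa_apply_eq_one (hyp N hn hroot) γ (fun f h hf hdiv hh => hpar f h hf hdiv hh) x

end Fermat.Agent.S30.Kappa6580
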