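import Fermat.Agent.S30.Kappa6580.MerPrecomp
import Fermat.Agent.S30.Kappa6580.Hecke
import Fermat.Prelude.Def_ModularCurve_HeckeModule

/-!
# GALREP / KUM-K6 on the landed S24 library: Hecke equivariance of the Kummer map (helper6580)

`kappaMod_heckeOperatorBar` : `kappaMod (T_ℓ x) = Tc (kappaMod x)` for the Prelude Hecke
operator `heckeOperatorBar N ℓ` on `JZero N`, where `Tc χ γ = ∏ x, χ (γ' γ x)` is the transfer
operator attached to a system of coset relations `α x * γ = γ' γ x * α (σ γ x)`, under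
* `HeckeInputsAlong ℚ̄ N ℓ` (proved by helper7011 for all `N`, `ℓ`),
* `RootHyp N n` (K1 + K4),
* `NormHyp N ℓ α` : `Phi N (Norm_α (β f)) = ∏ x, merPre (α x) (Phi N f)` (N4 of K6).
-/

set_option autoImplicit false
set_option linter.unusedSectionVars false
set_option linter.style.haveILetI false

noncomputable section

open UpperHalfPlane ModularCurve AlgebraicCurve
open scoped MatrixGroups Manifold

namespace Fermat.Agent.S30.Kappa6580

open Fermat.Agent.S24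

/-- The analytic norm hypothesis (N4 of K6): the bridge turns `Norm_α ∘ β` into the product of
the precompositions with the finite family `α x`. -/
def NormHyp (N ℓ : ℕ) [NeZero N] [NeZero ℓ] {ι : Type*} [Fintype ι] (α : ι → GL (Fin 2) ℝ)
    (hα : ∀ x, 0 < (α x).det.val) : Prop :=
  ∀ f : ↥(modularFunctionFieldBar N),
    Phi N (normAlong (heckeAlphaBar (AlgebraicClosure ℚ) N ℓ)
      (heckeBetaBar (AlgebraicClosure ℚ) N ℓ f)) = ∏ x, merPre (α x) (hα x) (Phi N f)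

variable {N : ℕ} [NeZero N]

/-- Hecke equivariance of the Kummer map, for the correspondence `heckePic0Bar`. -/
theorem kappaMod_heckePic0Bar {n : ℕ} (hn : n ≠ 0) (hroot : RootHyp N n) {ℓ : ℕ} [NeZero ℓ]
    (hα : HeckeAlphaBarIntegral (AlgebraicClosure ℚ) N ℓ)
    (hβ : HeckeBetaBarIntegral (AlgebraicClosure ℚ) N ℓ)
    [HasPrincipalDivisors (AlgebraicClosure ℚ) (modularFunctionFieldBar (N * ℓ))]
    (hFI : FundamentalIdentityAlong (AlgebraicClosure ℚ) (heckeBetaBar (AlgebraicClosure ℚ) N ℓ) hβ)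
    (hfin : FiniteAlong (AlgebraicClosure ℚ) (heckeAlphaBar (AlgebraicClosure ℚ) N ℓ))
    (hN : NormFormulaAlong (AlgebraicClosure ℚ) (heckeAlphaBar (AlgebraicClosure ℚ) N ℓ) hfin)
    {ι : Type*} [Fintype ι] (α : ι → GL (Fin 2) ℝ) (hαpos : ∀ x, 0 < (α x).det.val)
    (hnorm : NormHyp N ℓ α hαpos)
    (σ : ↥(CongruenceSubgroup.Gamma0 N) → Equiv.Perm ι)
    (γ' : ↥(CongruenceSubgroup.Gamma0 N) → ι → ↥(CongruenceSubgroup.Gamma0 N))
    (hrel : ∀ (γ : ↥(CongruenceSubgroup.Gamma0 N)) (x : ι),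
      α x * Matrix.SpecialLinearGroup.mapGL ℝ (γ : SL(2, ℤ))
        = Matrix.SpecialLinearGroup.mapGL ℝ (γ' γ x : SL(2, ℤ)) * α (σ γ x))
    (Tc : (↥(CongruenceSubgroup.Gamma0 N) →* ℂˣ) → (↥(CongruenceSubgroup.Gamma0 N) →* ℂˣ))
    (hTc : ∀ (χ : ↥(CongruenceSubgroup.Gamma0 N) →* ℂˣ) (γ : ↥(CongruenceSubgroup.Gamma0 N)),
      Tc χ γ = ∏ x, χ (γ' γ x))
    (x : Pic0.torsion (AlgebraicClosure ℚ) ↥(modularFunctionFieldBar N) n) :
    kappaMod N hn hroot ⟨heckePic0Bar hα hβ hFI hfin hN x,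
        Setup.map_mem_torsion (heckePic0Bar hα hβ hFI hfin hN) x.2⟩
      = Additive.ofMul (Tc (Additive.toMul (kappaMod N hn hroot x))) := by
  refine Setup.kappa_correspondence (S := setup N) (heckeBetaBar (AlgebraicClosure ℚ) N ℓ)
    (heckeAlphaBar (AlgebraicClosure ℚ) N ℓ) hβ hα hFI hfin hN (hyp N hn hroot) Tc ?_ x
  intro f h χ _ hh hχ
  refine ⟨∏ x, merPre (α x) (hαpos x) h, ?_, isChar_prod_merPre α hαpos hχ σ γ' hrel (hTc χ)⟩
  rw [← Finset.prod_pow]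
  have e : (setup N).Φ = Phi N := rfl
  rw [e, hnorm f]
  refine Finset.prod_congr rfl fun x _ => ?_
  rw [← map_pow, hh, e]

/-- Hecke equivariance of the Kummer map, for `heckeOperatorAlong`. -/
theorem kappaMod_heckeOperatorAlong {n : ℕ} (hn : n ≠ 0) (hroot : RootHyp N n) {ℓ : ℕ} [NeZero ℓ]
    (hin : HeckeInputsAlong (AlgebraicClosure ℚ) N ℓ)
    {ι : Type*} [Fintype ι] (α : ι → GL (Fin 2) ℝ) (hαpos : ∀ x, 0 < (α x).det.val)
    (hnorm : NormHyp N ℓ α hαpos)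
    (σ : ↥(CongruenceSubgroup.Gamma0 N) → Equiv.Perm ι)
    (γ' : ↥(CongruenceSubgroup.Gamma0 N) → ι → ↥(CongruenceSubgroup.Gamma0 N))
    (hrel : ∀ (γ : ↥(CongruenceSubgroup.Gamma0 N)) (x : ι),
      α x * Matrix.SpecialLinearGroup.mapGL ℝ (γ : SL(2, ℤ))
        = Matrix.SpecialLinearGroup.mapGL ℝ (γ' γ x : SL(2, ℤ)) * α (σ γ x))
    (Tc : (↥(CongruenceSubgroup.Gamma0 N) →* ℂˣ) → (↥(CongruenceSubgroup.Gamma0 N) →* ℂˣ))
    (hTc : ∀ (χ : ↥(CongruenceSubgroup.Gamma0 N) →* ℂˣ) (γ : ↥(CongruenceSubgroup.Gamma0 N)),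
      Tc χ γ = ∏ x, χ (γ' γ x))
    (x : Pic0.torsion (AlgebraicClosure ℚ) ↥(modularFunctionFieldBar N) n) :
    kappaMod N hn hroot ⟨heckeOperatorAlong (AlgebraicClosure ℚ) N ℓ x,
        Setup.map_mem_torsion (heckeOperatorAlong (AlgebraicClosure ℚ) N ℓ) x.2⟩
      = Additive.ofMul (Tc (Additive.toMul (kappaMod N hn hroot x))) := by
  obtain ⟨hα, hβ, hP, hfin, hFI, hN⟩ := hin
  haveI := hP
  have e := heckeOperatorAlong_eq hα hβ hFI hfin hN
  have key := kappaMod_heckePic0Bar hn hroot hα hβ hFI hfin hN α hαpos hnorm σ γ' hrel Tc hTc x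
  rw [← key]
  congr 1
  exact Subtype.ext (by rw [e])

/-- **Hecke equivariance of the Kummer map** for the Prelude Hecke operator on `JZero N`. -/
theorem kappaMod_heckeOperatorBar {n : ℕ} (hn : n ≠ 0) (hroot : RootHyp N n) (ℓ : Nat.Primes)
    (hin : haveI : NeZero (ℓ : ℕ) := ⟨ℓ.2.ne_zero⟩; HeckeInputsAlong (AlgebraicClosure ℚ) N ℓ)
    {ι : Type*} [Fintype ι] (α : ι → GL (Fin 2) ℝ) (hαpos : ∀ x, 0 < (α x).det.val)
    (hnorm : haveI : NeZero (ℓ : ℕ) := ⟨ℓ.2.ne_zero⟩; NormHyp N ℓ α hαpos)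
    (σ : ↥(CongruenceSubgroup.Gamma0 N) → Equiv.Perm ι)
    (γ' : ↥(CongruenceSubgroup.Gamma0 N) → ι → ↥(CongruenceSubgroup.Gamma0 N))
    (hrel : ∀ (γ : ↥(CongruenceSubgroup.Gamma0 N)) (x : ι),
      α x * Matrix.SpecialLinearGroup.mapGL ℝ (γ : SL(2, ℤ))
        = Matrix.SpecialLinearGroup.mapGL ℝ (γ' γ x : SL(2, ℤ)) * α (σ γ x))
    (Tc : (↥(CongruenceSubgroup.Gamma0 N) →* ℂˣ) → (↥(CongruenceSubgroup.Gamma0 N) →* ℂˣ))
    (hTc : ∀ (χ : ↥(CongruenceSubgroup.Gamma0 N) →* ℂˣ) (γ : ↥(CongruenceSubgroup.Gamma0 N)),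
      Tc χ γ = ∏ x, χ (γ' γ x))
    (x : Pic0.torsion (AlgebraicClosure ℚ) ↥(modularFunctionFieldBar N) n)
    (hx : heckeOperatorBar N ℓ (x : JZero N)
      ∈ Pic0.torsion (AlgebraicClosure ℚ) ↥(modularFunctionFieldBar N) n) :
    kappaMod N hn hroot ⟨heckeOperatorBar N ℓ (x : JZero N), hx⟩
      = Additive.ofMul (Tc (Additive.toMul (kappaMod N hn hroot x))) := by
  haveI : NeZero (ℓ : ℕ) := ⟨ℓ.2.ne_zero⟩
  exact kappaMod_heckeOperatorAlong hn hroot hin α hαpos hnorm σ γ' hrel Tc hTc x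

end Fermat.Agent.S30.Kappa6580
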